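import Fermat.Agent.RED.KD.H22_KD

/-!
# The places of `F_N = Q̄(X₀(N))` at the cusps `∞` and `0` (helper22)

* `laurentPlace E y hy : Place k E` for a subfield `E ⊂ k((q))` containing an element `y` of
  order `-1`; `ord_laurentPlace : P.ord x = order x`.
* `cuspInf N`, `cuspZero N : Place Q̄ F_N` with
  `ord_cuspInf : (cuspInf N).ord x = order x` and
  `ord_cuspZero : (cuspZero N).ord x = order (iota0 N x)` (`iota0` = expansion at the cusp `0`
  in `u = q^(1/N)`).
-/

set_option autoImplicit false

noncomputable section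

open HahnSeries ModularCurve IntermediateField WithZero

namespace Fermat.Agent.RED.KD.H22

open Fermat.Agent.S24 Fermat.Agent.RED.H10 AlgebraicCurve
open scoped MatrixGroups

section General

variable {K E : Type*} [Field K] [Field E] [Algebra K E]

/-- If some function has `v`-order `-1`, the place of `v` has `ord = - log v`. -/
theorem ord_placeOfValuation_eq (v : Valuation E ℤᵐ⁰)
    (hK : ∀ a : K, v (algebraMap K E a) ≤ 1) (hnt : ∃ x : E, x ≠ 0 ∧ v x ≠ 1)
    (y : E) (hy0 : y ≠ 0) (hy : -(WithZero.log (v y)) = -1) (x : E) (hx : x ≠ 0) :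
    (placeOfValuation v hK hnt).ord x = -(WithZero.log (v x)) := by
  obtain ⟨e, he, h⟩ := exists_ord_placeOfValuation v hK hnt
  have h1 := h y hy0
  rw [hy] at h1
  have he1 : (e : ℤ) = 1 := by
    have hdvd : (e : ℤ) ∣ 1 := ⟨-(placeOfValuation v hK hnt).ord y, by linarith⟩
    have hpos : (0 : ℤ) < e := by exact_mod_cast he
    exact Int.eq_one_of_dvd_one hpos.le hdvd
  rw [h x hx, he1, one_mul]

end General

section Laurent

variable {k : Type*} [Field k] (E : IntermediateField k (LaurentSeries k))

/-- The `q`-order valuation on a subfield of `k((q))`. -/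
def laurentVal : Valuation E ℤᵐ⁰ :=
  (Valued.v : Valuation (LaurentSeries k) ℤᵐ⁰).comap (algebraMap E (LaurentSeries k))

theorem laurentVal_eq {x : E} (hx : x ≠ 0) :
    laurentVal E x = exp (-(x : LaurentSeries k).order) := by
  have hx' : (x : LaurentSeries k) ≠ 0 := fun h => hx (Subtype.ext h)
  exact valued_eq_exp_order _ hx'

theorem laurentVal_algebraMap_le (a : k) : laurentVal E (algebraMap k E a) ≤ 1 := by
  rcases eq_or_ne a 0 with rfl | ha
  · rw [map_zero, map_zero]
    exact zero_le_one
  · have hne : algebraMap k E a ≠ 0 := by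
      rw [Ne, map_eq_zero_iff _ (algebraMap k E).injective]
      exact ha
    rw [laurentVal_eq E hne]
    have : ((algebraMap k E a : E) : LaurentSeries k) = HahnSeries.C a := by
      show algebraMap k (LaurentSeries k) a = _
      rw [algebraMap_laurentSeries_eq_single, HahnSeries.C_apply]
    rw [this, HahnSeries.order_C, neg_zero, exp_zero]

variable (y : E) (hy : (y : LaurentSeries k).order = -1)

include hy in
theorem laurent_ne_zero : y ≠ 0 := by
  intro h
  rw [h] at hy
  have : ((0 : E) : LaurentSeries k).order = 0 := HahnSeries.order_zero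
  rw [this] at hy
  omega

include hy in
theorem laurentVal_nontrivial : ∃ x : E, x ≠ 0 ∧ laurentVal E x ≠ 1 := by
  refine ⟨y, laurent_ne_zero E y hy, ?_⟩
  rw [laurentVal_eq E (laurent_ne_zero E y hy), hy]
  intro h
  have := congrArg WithZero.log h
  rw [WithZero.log_exp, WithZero.log_one] at this
  omega

/-- The place "`q`-order" of a subfield of `k((q))` containing an element of order `-1`. -/
def laurentPlace : Place k E :=
  placeOfValuation (laurentVal E) (laurentVal_algebraMap_le E) (laurentVal_nontrivial E y hy)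

theorem ord_laurentPlace (x : E) (hx : x ≠ 0) :
    (laurentPlace E y hy).ord x = (x : LaurentSeries k).order := by
  have h0 := laurent_ne_zero E y hy
  rw [laurentPlace, ord_placeOfValuation_eq _ _ _ y h0 (by
    rw [laurentVal_eq E h0, WithZero.log_exp, neg_neg, hy]) x hx, laurentVal_eq E hx,
    WithZero.log_exp, neg_neg]

theorem mem_laurentPlace_iff (x : E) :
    x ∈ (laurentPlace E y hy).toValuationSubring ↔ x = 0 ∨ 0 ≤ (x : LaurentSeries k).order := by
  show x ∈ (laurentVal E).valuationSubring ↔ _
  rw [Valuation.mem_valuationSubring_iff]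
  rcases eq_or_ne x 0 with rfl | hx
  · simp
  · rw [laurentVal_eq E hx, ← exp_zero, exp_le_exp]
    constructor
    · intro h; right; omega
    · rintro (h | h)
      · exact absurd h hx
      · omega

end Laurent

/-! ## The cusps `∞` and `0` of `X₀(N)` -/

theorem jF_order (N : ℕ) [NeZero N] : ((jF N : FN N) : LaurentSeries Kbar).order = -1 :=
  jBar_order

/-- The place of `F_N` at the cusp `∞`. -/
def cuspInf (N : ℕ) [NeZero N] : Place Kbar (FN N) :=
  laurentPlace (modularFunctionFieldBar N) (jF N) (jF_order N)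

theorem ord_cuspInf (N : ℕ) [NeZero N] (x : FN N) (hx : x ≠ 0) :
    (cuspInf N).ord x = (x : LaurentSeries Kbar).order :=
  ord_laurentPlace _ _ _ x hx

theorem val0_self_eq (N : ℕ) [NeZero N] {x : FN N} (hx : x ≠ 0) :
    val0 (dvd_refl N) x = exp (-(iota0 N x).order) := by
  rw [val0_eq _ hx]
  have : incl (dvd_refl N) x = x := Subtype.ext (incl_coe _ x)
  rw [this]

/-- The place of `F_N` at the cusp `0`. -/
def cuspZero (N : ℕ) [NeZero N] : Place Kbar (FN N) :=
  placeOfValuation (val0 (dvd_refl N)) (val0_algebraMap_le _)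
    ⟨jF N, fun h0 => jBar_ne_zero (congrArg (fun y : FN N => (y : LaurentSeries Kbar)) h0),
      val0_jF_ne_one _⟩

theorem jdF_self_ne_zero (N : ℕ) [NeZero N] : jdF N N dvd_rfl ≠ 0 := by
  intro h
  have := congrArg (iota0 N) h
  rw [iota0_jdF_self, map_zero] at this
  exact jBar_ne_zero this

theorem ord_cuspZero (N : ℕ) [NeZero N] (x : FN N) (hx : x ≠ 0) :
    (cuspZero N).ord x = (iota0 N x).order := by
  rw [cuspZero, ord_placeOfValuation_eq _ _ _ (jdF N N dvd_rfl) (jdF_self_ne_zero N) (by
    rw [val0_self_eq N (jdF_self_ne_zero N), WithZero.log_exp, neg_neg, iota0_jdF_self,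
      jBar_order]) x hx, val0_self_eq N hx, WithZero.log_exp, neg_neg]

/-- `j` has a simple pole at `∞` and a pole of order `N` at the cusp `0`. -/
theorem ord_cuspInf_jF (N : ℕ) [NeZero N] : (cuspInf N).ord (jF N) = -1 := by
  rw [ord_cuspInf N _ (laurent_ne_zero _ _ (jF_order N)), jF_order]

theorem iota0_jF_order (N : ℕ) [NeZero N] : (iota0 N (jF N)).order = -(N : ℤ) := by
  have : NeZero (N / 1) := ⟨by rw [Nat.div_one]; exact NeZero.ne N⟩
  rw [jF_eq_jdF, iota0_jdF N 1 (one_dvd N)]
  have hN : (0 : ℤ) < N := by exact_mod_cast Nat.pos_of_ne_zero (NeZero.ne N)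
  have e : -(N : ℤ) = ((N / 1 : ℕ) : ℤ) * (-1) := by rw [Nat.div_one]; ring
  apply le_antisymm
  · apply HahnSeries.order_le_of_coeff_ne_zero
    rw [e, qExpand_coeff_mul, asm_jBar_coeff_neg_one]
    exact one_ne_zero
  · by_contra hcon
    rw [not_le] at hcon
    have hne : qExpand Kbar (N / 1) jBar ≠ 0 := by
      intro h0
      have := congrArg (fun y : LaurentSeries Kbar => y.coeff (((N / 1 : ℕ) : ℤ) * (-1))) h0
      simp only [qExpand_coeff_mul, asm_jBar_coeff_neg_one, HahnSeries.coeff_zero] at this
      exact one_ne_zero this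
    apply hne
    apply HahnSeries.coeff_order_eq_zero.mp
    set n := (qExpand Kbar (N / 1) jBar).order with hn
    by_cases hdvd : ((N / 1 : ℕ) : ℤ) ∣ n
    · obtain ⟨k, hk⟩ := hdvd
      rw [hk, qExpand_coeff_mul]
      have hk1 : k < -1 := by
        rw [Nat.div_one] at hk
        by_contra hk1
        rw [not_lt] at hk1
        have : (N : ℤ) * (-1) ≤ (N : ℤ) * k := mul_le_mul_of_nonneg_left hk1 hN.le
        omega
      rw [jBar, coeffEmb_coeff, coeff_jq_of_lt hk1, map_zero]
    · exact qExpand_coeff_of_not_dvd _ _ hdvd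

theorem ord_cuspZero_jF (N : ℕ) [NeZero N] : (cuspZero N).ord (jF N) = -(N : ℤ) := by
  rw [ord_cuspZero N _ (laurent_ne_zero _ _ (jF_order N)), iota0_jF_order]

end Fermat.Agent.RED.KD.H22
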