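import Fermat.Agent.RED.H10_Kronecker
import Mathlib.RingTheory.LaurentSeries
import Mathlib.RingTheory.RootsOfUnity.PrimitiveRoots

/-!
# G-RED package KD (helper22), part 1: Laurent series lemmas

`rot ζ : K((u)) → K((u))`, `u ↦ ζ u` (helper10).  For a primitive `c`-th root of unity `ζ` the
fixed field of `rot ζ` is `K((u^c))`.

* `dvd_order_of_rot_eq` : a fixed series has order divisible by `c`.
* `rot_eq_of_pow` : if `t ^ m` is fixed and `c m ∣ ord (t ^ m)` then `t` is fixed.
* `eq_zero_of_sum_eq_zero` : `1, Y, …, Y^(c-1)` are linearly independent over the fixed field when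
  `ord Y = -1`.
-/

set_option autoImplicit false

noncomputable section

open HahnSeries

namespace Fermat.Agent.RED.KD.H22

open Fermat.Agent.RED.H10

variable {K : Type*} [Field K]

/-- A nonzero series fixed by `rot ζ`, `ζ` a primitive `c`-th root of unity, has order divisible
by `c`. -/
theorem dvd_order_of_rot_eq {c : ℕ} {ζ : Kˣ} (hζ : IsPrimitiveRoot ζ c) {x : LaurentSeries K}
    (hx : rot ζ x = x) (h0 : x ≠ 0) : (c : ℤ) ∣ x.order := by
  have h1 : x.coeff x.order ≠ 0 := fun h => h0 (HahnSeries.coeff_order_eq_zero.mp h)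
  have h2 : ((ζ ^ x.order : Kˣ) : K) * x.coeff x.order = x.coeff x.order := by
    have := congrArg (fun y : LaurentSeries K => y.coeff x.order) hx
    simpa only [rot_coeff] using this
  have h3 : ((ζ ^ x.order : Kˣ) : K) = 1 := by
    have : (((ζ ^ x.order : Kˣ) : K) - 1) * x.coeff x.order = 0 := by
      rw [sub_mul, h2, one_mul, sub_self]
    rcases mul_eq_zero.mp this with h | h
    · exact sub_eq_zero.mp h
    · exact absurd h h1
  have h4 : ζ ^ x.order = 1 := Units.ext h3
  exact (hζ.zpow_eq_one_iff_dvd _).mp h4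

/-- **Root extraction in the fixed field.**  If `t ^ m` is fixed by `rot ζ` and its order is
divisible by `c m`, then `t` is fixed by `rot ζ`. -/
theorem rot_eq_of_pow {c m : ℕ} (hm : 0 < m) {ζ : Kˣ} (hζ : IsPrimitiveRoot ζ c)
    {η : K} (hη : IsPrimitiveRoot η m) {t : LaurentSeries K}
    (hg : rot ζ (t ^ m) = t ^ m) (hord : ((c * m : ℕ) : ℤ) ∣ (t ^ m).order) :
    rot ζ t = t := by
  rcases eq_or_ne t 0 with rfl | ht
  · exact map_zero _
  have hm' : NeZero m := ⟨hm.ne'⟩
  -- `x = rot ζ t / t` is an `m`-th root of unity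
  have hx : (rot ζ t * t⁻¹) ^ m = 1 := by
    rw [mul_pow, ← map_pow, hg, inv_pow, mul_inv_cancel₀ (pow_ne_zero m ht)]
  have hηL : IsPrimitiveRoot (HahnSeries.C η : LaurentSeries K) m :=
    hη.map_of_injective (f := (HahnSeries.C : K →+* LaurentSeries K)) HahnSeries.C_injective
  obtain ⟨i, -, hi⟩ := hηL.eq_pow_of_pow_eq_one hx
  have hrot : rot ζ t = HahnSeries.C (η ^ i) * t := by
    rw [map_pow, hi, mul_assoc, inv_mul_cancel₀ ht, mul_one]
  -- compare the leading coefficients
  have h1 : t.coeff t.order ≠ 0 := fun h => ht (HahnSeries.coeff_order_eq_zero.mp h)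
  have h2 : ((ζ ^ t.order : Kˣ) : K) * t.coeff t.order = η ^ i * t.coeff t.order := by
    have := congrArg (fun y : LaurentSeries K => y.coeff t.order) hrot
    simpa only [rot_coeff, HahnSeries.C_mul_eq_smul, HahnSeries.coeff_smul, smul_eq_mul] using this
  have h3 : ((ζ ^ t.order : Kˣ) : K) = η ^ i := mul_right_cancel₀ h1 h2
  -- the order of `t` is divisible by `c`
  have h4 : (c : ℤ) ∣ t.order := by
    rw [HahnSeries.order_pow, nsmul_eq_mul] at hord
    push_cast at hord
    rw [mul_comm (c : ℤ) (m : ℤ)] at hord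
    exact (mul_dvd_mul_iff_left (by exact_mod_cast hm.ne')).mp hord
  have h5 : ζ ^ t.order = 1 := (hζ.zpow_eq_one_iff_dvd _).mpr h4
  rw [h5, Units.val_one] at h3
  rw [hrot, ← h3, map_one, one_mul]

/-- **Linear independence.**  If `ord Y = -1` and the `b i`, `i < c`, are fixed by `rot ζ`
(`ζ` a primitive `c`-th root of unity), then `∑ b i Y ^ i = 0` forces all `b i = 0`. -/
theorem eq_zero_of_sum_eq_zero {c : ℕ} {ζ : Kˣ} (hζ : IsPrimitiveRoot ζ c)
    (Y : LaurentSeries K) (hY0 : Y ≠ 0) (hY : Y.order = -1)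
    (b : Fin c → LaurentSeries K) (hb : ∀ i, rot ζ (b i) = b i)
    (hsum : ∑ i, b i * Y ^ (i : ℕ) = 0) : ∀ i, b i = 0 := by
  classical
  by_contra hne
  rw [not_forall] at hne
  obtain ⟨j, hj⟩ := hne
  set S : Finset (Fin c) := Finset.univ.filter (fun i => b i ≠ 0) with hS
  have hSne : S.Nonempty := ⟨j, by simp [hS, hj]⟩
  obtain ⟨i₀, hi₀S, hmin⟩ := Finset.exists_min_image S (fun i => (b i).order - (i : ℤ)) hSne
  have hi₀ : b i₀ ≠ 0 := by simpa [hS] using hi₀S
  have hord : ∀ i, b i ≠ 0 → (b i * Y ^ (i : ℕ)).order = (b i).order - (i : ℤ) := by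
    intro i hi
    rw [HahnSeries.order_mul hi (pow_ne_zero _ hY0), HahnSeries.order_pow, hY]
    simp
    ring
  have hterm : ∀ i, i ≠ i₀ → (b i * Y ^ (i : ℕ)).coeff ((b i₀).order - (i₀ : ℤ)) = 0 := by
    intro i hi
    rcases eq_or_ne (b i) 0 with h0 | h0
    · rw [h0, zero_mul]; rfl
    · apply HahnSeries.coeff_eq_zero_of_lt_order
      rw [hord i h0]
      have hle := hmin i (by simp [hS, h0])
      refine lt_of_le_of_ne hle ?_
      intro heq
      -- orders are divisible by `c`, the indices are distinct below `c`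
      have h1 := dvd_order_of_rot_eq hζ (hb i) h0
      have h2 := dvd_order_of_rot_eq hζ (hb i₀) hi₀
      have h3 : (c : ℤ) ∣ (i : ℤ) - (i₀ : ℤ) := by
        have : (i : ℤ) - (i₀ : ℤ) = (b i).order - (b i₀).order := by linarith
        rw [this]
        exact dvd_sub h1 h2
      have h4 : ((i : ℕ) : ℤ) = ((i₀ : ℕ) : ℤ) := by
        have hi1 := i.2
        have hi2 := i₀.2
        obtain ⟨k, hk⟩ := h3
        have hk0 : k = 0 := by
          by_contra hk0
          have : (c : ℤ) ≤ |(i : ℤ) - (i₀ : ℤ)| := by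
            rw [hk, abs_mul]
            have hc0 : (0 : ℤ) ≤ c := by positivity
            rw [abs_of_nonneg hc0]
            have : 1 ≤ |k| := Int.one_le_abs hk0
            nlinarith
          have : |((i : ℕ) : ℤ) - ((i₀ : ℕ) : ℤ)| < c := by
            rw [abs_lt]
            constructor <;> omega
          omega
        rw [hk0, mul_zero] at hk
        linarith
      exact hi (Fin.ext (by exact_mod_cast h4))
  have hcoeff := congrArg (fun y : LaurentSeries K => y.coeff ((b i₀).order - (i₀ : ℤ))) hsum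
  simp only [HahnSeries.coeff_sum, HahnSeries.coeff_zero] at hcoeff
  rw [Finset.sum_eq_single i₀ (fun i _ hi => hterm i hi) (fun h => absurd (Finset.mem_univ _) h)]
    at hcoeff
  have hne0 : b i₀ * Y ^ (i₀ : ℕ) ≠ 0 := mul_ne_zero hi₀ (pow_ne_zero _ hY0)
  rw [← hord i₀ hi₀] at hcoeff
  exact hne0 (HahnSeries.coeff_order_eq_zero.mp hcoeff)

end Fermat.Agent.RED.KD.H22
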