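import Fermat.Agent.S24.Closure.Phi
import Fermat.Agent.RED.KD.H22_Laurent

/-!
# G-RED package KD (helper22), part 3: the expansion of `F_M` at the cusp `0`

`iota0 M : F_M →+* Q̄((u))`, `u = q^(1/M)`: the expansion at `∞` of `f ∘ S⁻¹`, built from the
Galois closure of S24.  `iota0 (j(q^d)) = j(u^(M/d))`.
-/

set_option autoImplicit false

noncomputable section

open HahnSeries ModularCurve

namespace Fermat.Agent.RED.KD.H22

open Fermat.Agent.S24 Fermat.Agent.RED.H10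
open scoped MatrixGroups

/-- The expansion at the cusp `0`. -/
def iota0 (M : ℕ) [NeZero M] : FN M →+* LaurentSeries Kbar :=
  ((UL M).toRingHom.comp ((piN M ModularGroup.S : LN M ≃ₐ[EN] LN M) : LN M →+* LN M)).comp
    (phi M).toRingHom

theorem iota0_apply (M : ℕ) [NeZero M] (x : FN M) :
    iota0 M x = UL M (piN M ModularGroup.S (phi M x)) := rfl

theorem iota0_algebraMap (M : ℕ) [NeZero M] (a : Kbar) :
    iota0 M (algebraMap Kbar (FN M) a) = HahnSeries.C a := by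
  rw [iota0_apply, (phi M).commutes, IsScalarTower.algebraMap_apply Kbar EN (LN M),
    AlgEquiv.commutes, ← IsScalarTower.algebraMap_apply Kbar EN (LN M), (UL M).commutes,
    algebraMap_laurentSeries_eq_single, HahnSeries.C_apply]

/-- `S • j(d τ) = j(τ / d)`. -/
theorem S_smul_JA_diag (d : ℕ) (hd : 0 < d) :
    (ModularGroup.S : SL(2, ℤ)) • JA !![(d : ℤ), 0; 0, 1] = JA !![(1 : ℤ), 0; 0, (d : ℤ)] := by
  have hdet : 0 < (!![(d : ℤ), 0; 0, 1] : Matrix (Fin 2) (Fin 2) ℤ).det := by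
    simpa [Matrix.det_fin_two] using hd
  have hdet' : 0 < (!![(1 : ℤ), 0; 0, (d : ℤ)] : Matrix (Fin 2) (Fin 2) ℤ).det := by
    simpa [Matrix.det_fin_two] using hd
  rw [smul_JA _ _ hdet]
  have h := JA_mul_left (ModularGroup.S⁻¹ : SL(2, ℤ)) !![(1 : ℤ), 0; 0, (d : ℤ)] hdet'
  rw [← h]
  congr 1
  have hS : ((ModularGroup.S⁻¹ : SL(2, ℤ)) : Matrix (Fin 2) (Fin 2) ℤ) = !![0, 1; -1, 0] := by
    rw [Matrix.SpecialLinearGroup.coe_inv, ModularGroup.coe_S, Matrix.adjugate_fin_two_of]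
    simp
  rw [hS]
  ext i j
  fin_cases i <;> fin_cases j <;> simp [Matrix.mul_apply, Fin.sum_univ_two]

/-- The expansion of `j(τ / d)` in `u = exp(2πiτ/M)` is `j(u^(M/d))`. -/
theorem uExp_JA_lower (M : ℕ) [NeZero M] (d : ℕ) [NeZero d] (hd : d ∣ M)
    (f : Atil M) (hf : (f : Hol) = JA !![(1 : ℤ), 0; 0, (d : ℤ)]) :
    haveI : NeZero (M / d) := ⟨(Nat.div_pos (Nat.le_of_dvd (Nat.pos_of_ne_zero (NeZero.ne M)) hd)
      (Nat.pos_of_ne_zero (NeZero.ne d))).ne'⟩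
    uExp M f = qExpand Kbar (M / d) jBar := by
  have hd0 : 0 < d := Nat.pos_of_ne_zero (NeZero.ne d)
  have : NeZero (M / d) := ⟨(Nat.div_pos (Nat.le_of_dvd (Nat.pos_of_ne_zero (NeZero.ne M)) hd)
      hd0).ne'⟩
  obtain ⟨c, hc, hc1, hc2⟩ := hasUExp_JA_upper M 1 d 0 one_pos hd0 hd
  have e : uExp M f = c := by
    apply uExp_eq
    rw [hf]
    exact_mod_cast hc
  rw [e]
  ext m
  simp only [mul_one, zero_mul, zpow_zero, one_mul] at hc1 hc2
  by_cases hm : ((M / d : ℕ) : ℤ) ∣ m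
  · obtain ⟨n, rfl⟩ := hm
    rw [hc1, qExpand_coeff_mul]
  · rw [hc2 m hm, qExpand_coeff_of_not_dvd _ _ hm]

theorem coe_smul_jdA (M : ℕ) (d : ℕ) (hd : 0 < d) (hdM : d ∣ M) :
    (((ModularGroup.S : SL(2, ℤ)) • jdA M d : Atil M) : Hol) = JA !![(1 : ℤ), 0; 0, (d : ℤ)] := by
  rw [coe_smul_Atil, jdA_coe M d hd hdM, S_smul_JA_diag d hd]

/-- `iota0 (j(q^d)) = j(u^(M/d))`. -/
theorem iota0_jdF (M : ℕ) [NeZero M] (d : ℕ) [NeZero d] (hd : d ∣ M) :
    haveI : NeZero (M / d) := ⟨(Nat.div_pos (Nat.le_of_dvd (Nat.pos_of_ne_zero (NeZero.ne M)) hd)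
      (Nat.pos_of_ne_zero (NeZero.ne d))).ne'⟩
    iota0 M (jdF M d hd) = qExpand Kbar (M / d) jBar := by
  have hd0 : 0 < d := Nat.pos_of_ne_zero (NeZero.ne d)
  rw [iota0_apply, phi_jdF, piN_algebraMap, UL_algebraMap]
  show uExp M ((toAT M).symm (ModularGroup.S • toAT M (jdA M d))) = _
  exact uExp_JA_lower M d hd _ (coe_smul_jdA M d hd0 hd)

end Fermat.Agent.RED.KD.H22
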