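import Fermat.Agent.S24.Asm.Degree
import Fermat.Agent.S24.Asm.One
import Fermat.Agent.S24.Closure.Final
import Fermat.Agent.RED.KD.H22_Cusp0
import Fermat.Agent.S20.H19_Arith

/-!
# G-RED package KD (helper22), part 4: the field fixed by `rot ζ` at the cusp `0`

For `M = N c` with `ψ(M) < 2 c ψ(N)`: an element of `F_M` whose expansion at the cusp `0` is a
series in `u^c` lies in `F_N`.
-/

set_option autoImplicit false

noncomputable section

open HahnSeries ModularCurve IntermediateField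

namespace Fermat.Agent.RED.KD.H22

open Fermat.Agent.S24 Fermat.Agent.RED.H10
open scoped MatrixGroups

theorem bar_le {N M : ℕ} [NeZero N] [NeZero M] (h : N ∣ M) :
    modularFunctionFieldBar N ≤ modularFunctionFieldBar M :=
  IntermediateField.adjoin.mono _ _ _ (Set.image_mono (full_degeneracy_le h))

/-- The inclusion `F_N → F_M`. -/
def incl {N M : ℕ} [NeZero N] [NeZero M] (h : N ∣ M) : FN N →ₐ[Kbar] FN M :=
  IntermediateField.inclusion (bar_le h)

theorem incl_coe {N M : ℕ} [NeZero N] [NeZero M] (h : N ∣ M) (x : FN N) :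
    ((incl h x : FN M) : LaurentSeries Kbar) = (x : LaurentSeries Kbar) :=
  IntermediateField.coe_inclusion (bar_le h) x

theorem incl_jdF {N M : ℕ} [NeZero N] [NeZero M] (h : N ∣ M) (d : ℕ) [NeZero d] (hd : d ∣ N) :
    incl h (jdF N d hd) = jdF M d (hd.trans h) := by
  apply Subtype.ext
  rw [incl_coe]
  rfl

theorem incl_jF {N M : ℕ} [NeZero N] [NeZero M] (h : N ∣ M) : incl h (jF N) = jF M := by
  apply Subtype.ext
  rw [incl_coe]
  rfl

theorem mem_range_incl_iff {N M : ℕ} [NeZero N] [NeZero M] (h : N ∣ M) (x : FN M) :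
    x ∈ (incl h).fieldRange ↔ (x : LaurentSeries Kbar) ∈ modularFunctionFieldBar N := by
  constructor
  · rintro ⟨y, rfl⟩
    have := incl_coe h y
    exact (incl_coe h y).symm ▸ y.2
  · intro hx
    exact ⟨⟨_, hx⟩, Subtype.ext (incl_coe h _)⟩

/-- The subfield of `F_M` of the functions whose expansion at the cusp `0` is fixed by
`rot ζ`. -/
def fixF (M : ℕ) [NeZero M] (ζ : Kbarˣ) : IntermediateField Kbar (FN M) where
  carrier := {x | rot ζ (iota0 M x) = iota0 M x}
  mul_mem' := fun {a b} ha hb => by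
    show rot ζ (iota0 M (a * b)) = iota0 M (a * b)
    rw [map_mul, map_mul, ha, hb]
  one_mem' := by
    show rot ζ (iota0 M 1) = iota0 M 1
    rw [map_one, map_one]
  add_mem' := fun {a b} ha hb => by
    show rot ζ (iota0 M (a + b)) = iota0 M (a + b)
    rw [map_add, map_add, ha, hb]
  zero_mem' := by
    show rot ζ (iota0 M 0) = iota0 M 0
    rw [map_zero, map_zero]
  algebraMap_mem' := fun c => by
    show rot ζ (iota0 M (algebraMap Kbar (FN M) c)) = iota0 M (algebraMap Kbar (FN M) c)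
    rw [iota0_algebraMap, rot_C]
  inv_mem' := fun a ha => by
    show rot ζ (iota0 M a⁻¹) = iota0 M a⁻¹
    rw [map_inv₀, map_inv₀, ha]

theorem mem_fixF {M : ℕ} [NeZero M] {ζ : Kbarˣ} {x : FN M} :
    x ∈ fixF M ζ ↔ rot ζ (iota0 M x) = iota0 M x := Iff.rfl

theorem jdF_mem_fixF {N M c : ℕ} [NeZero N] [NeZero M] (hM : M = N * c) {ζ : Kbarˣ}
    (hζ : ζ ^ c = 1) (d : ℕ) [NeZero d] (hd : d ∣ N) :
    jdF M d (hd.trans (Dvd.intro c hM.symm)) ∈ fixF M ζ := by
  have hc0 : c ≠ 0 := by
    rintro rfl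
    exact NeZero.ne M (by rw [hM, mul_zero])
  have : NeZero c := ⟨hc0⟩
  have hNd : 0 < N / d := Nat.div_pos (Nat.le_of_dvd (Nat.pos_of_ne_zero (NeZero.ne N)) hd)
    (Nat.pos_of_ne_zero (NeZero.ne d))
  have : NeZero (N / d) := ⟨hNd.ne'⟩
  have hdM : d ∣ M := hd.trans (Dvd.intro c hM.symm)
  have hMd : 0 < M / d := Nat.div_pos (Nat.le_of_dvd (Nat.pos_of_ne_zero (NeZero.ne M)) hdM)
    (Nat.pos_of_ne_zero (NeZero.ne d))
  have : NeZero (M / d) := ⟨hMd.ne'⟩
  have : NeZero (c * (N / d)) := ⟨Nat.mul_ne_zero hc0 hNd.ne'⟩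
  rw [mem_fixF, iota0_jdF M d hdM]
  have e : M / d = c * (N / d) := by
    rw [hM, mul_comm N c, Nat.mul_div_assoc c hd]
  rw [qExpand_congr e, ← qExpand_qExpand]
  exact rot_qExpand c ζ hζ _

theorem mem_comap_iff' {K L L' : Type*} [Field K] [Field L] [Field L'] [Algebra K L]
    [Algebra K L'] (f : L →ₐ[K] L') (S : IntermediateField K L') (x : L) :
    x ∈ S.comap f ↔ f x ∈ S := Iff.rfl

theorem range_incl_le_fixF {N M c : ℕ} [NeZero N] [NeZero M] (hM : M = N * c) {ζ : Kbarˣ}
    (hζ : ζ ^ c = 1) : (incl (Dvd.intro c hM.symm : N ∣ M)).fieldRange ≤ fixF M ζ := by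
  have h : N ∣ M := Dvd.intro c hM.symm
  have htop : (fixF M ζ).comap (incl h) = ⊤ := by
    rw [eq_top_iff, ← adjoin_jdF N, IntermediateField.adjoin_le_iff]
    rintro _ ⟨d, hd0, hd, rfl⟩
    rw [SetLike.mem_coe, mem_comap_iff', incl_jdF]
    exact jdF_mem_fixF hM hζ d hd
  intro y hy
  rw [AlgHom.mem_fieldRange] at hy
  obtain ⟨x, rfl⟩ := hy
  have hx : x ∈ (fixF M ζ).comap (incl h) := by
    rw [htop]
    exact IntermediateField.mem_top
  exact (mem_comap_iff' _ _ _).mp hx

theorem relfinrank_J_top (M : ℕ) [NeZero M] :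
    relfinrank Kbar⟮jF M⟯ (⊤ : IntermediateField Kbar (FN M)) = dedekindPsi M := by
  rw [relfinrank_top_right]
  exact asm_finrank (modClosure M)

theorem relfinrank_J_range {N M : ℕ} [NeZero N] [NeZero M] (h : N ∣ M) :
    relfinrank Kbar⟮jF M⟯ (incl h).fieldRange = dedekindPsi N := by
  have h1 := relfinrank_map_map (A := Kbar⟮jF N⟯) (B := (⊤ : IntermediateField Kbar (FN N)))
    (incl h)
  rw [relfinrank_J_top N] at h1
  rw [← h1]
  congr 1
  · rw [IntermediateField.adjoin_map, Set.image_singleton, incl_jF]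
  · rw [AlgHom.fieldRange_eq_map]

theorem J_le_range {N M : ℕ} [NeZero N] [NeZero M] (h : N ∣ M) :
    Kbar⟮jF M⟯ ≤ (incl h).fieldRange := by
  rw [IntermediateField.adjoin_le_iff]
  rintro _ rfl
  exact ⟨jF N, incl_jF h⟩

theorem dedekindPsi_pos (N : ℕ) [NeZero N] : 0 < dedekindPsi N := by
  have h := asm_finrank (modClosure N)
  have : FiniteDimensional Kbar⟮jF N⟯ (FN N) := asm_finiteDimensional (modClosure N)
  rw [← h]
  exact Module.finrank_pos

theorem jBar_ne_zero : (jBar : LaurentSeries Kbar) ≠ 0 := by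
  intro h
  have := asm_jBar_coeff_neg_one
  rw [h] at this
  exact zero_ne_one this

theorem jBar_order : (jBar : LaurentSeries Kbar).order = -1 := by
  apply le_antisymm
  · exact HahnSeries.order_le_of_coeff_ne_zero (by rw [asm_jBar_coeff_neg_one]; exact one_ne_zero)
  · by_contra hcon
    rw [not_le] at hcon
    have h0 : ∀ k : ℤ, k < -1 → (jBar : LaurentSeries Kbar).coeff k = 0 := by
      intro k hk
      rw [jBar, coeffEmb_coeff, coeff_jq_of_lt hk, map_zero]
    have h1 : (jBar : LaurentSeries Kbar).coeff jBar.order = 0 := h0 _ hcon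
    exact jBar_ne_zero (HahnSeries.coeff_order_eq_zero.mp h1)

theorem iota0_jdF_self (M : ℕ) [NeZero M] : iota0 M (jdF M M dvd_rfl) = jBar := by
  have h := iota0_jdF M M dvd_rfl
  have hM : 0 < M := Nat.pos_of_ne_zero (NeZero.ne M)
  have : NeZero (M / M) := ⟨by rw [Nat.div_self hM]; exact one_ne_zero⟩
  rw [h, qExpand_congr (Nat.div_self hM), qExpand_one_apply]

theorem iota0_injective (M : ℕ) [NeZero M] : Function.Injective (iota0 M) :=
  (iota0 M).injective

/-- `[F_M : fixF] ≥ c`. -/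
theorem le_finrank_fixF (M c : ℕ) [NeZero M] {ζ : Kbarˣ} (hζ : IsPrimitiveRoot ζ c)
    [Module.Finite (fixF M ζ) (FN M)] : c ≤ Module.finrank (fixF M ζ) (FN M) := by
  have hli : LinearIndependent (fixF M ζ) (fun i : Fin c => (jdF M M dvd_rfl) ^ (i : ℕ)) := by
    rw [Fintype.linearIndependent_iff]
    intro g hg
    have hg' : ∑ i, iota0 M ((g i : FN M)) * (jBar : LaurentSeries Kbar) ^ (i : ℕ) = 0 := by
      have := congrArg (iota0 M) hg
      rw [map_sum, map_zero] at this
      rw [← this]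
      refine Finset.sum_congr rfl fun i _ => ?_
      rw [IntermediateField.smul_def, smul_eq_mul, map_mul, map_pow, iota0_jdF_self]
    have hz := eq_zero_of_sum_eq_zero hζ jBar jBar_ne_zero jBar_order
      (fun i => iota0 M ((g i : FN M))) (fun i => (g i).2) hg'
    intro i
    have h0 : ((g i : FN M)) = 0 := iota0_injective M (by rw [hz i, map_zero])
    exact Subtype.ext h0
  have := hli.fintype_card_le_finrank
  simpa using this

/-- **Core.**  For `M = N c` with `ψ(M) < 2 c ψ(N)`, an element of `F_M` whose expansion at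
the cusp `0` is fixed by `rot ζ` (`ζ` a primitive `c`-th root of unity) lies in `F_N`. -/
theorem mem_bar_of_fixed {N M c : ℕ} [NeZero N] [NeZero M] (hM : M = N * c)
    (hψ : dedekindPsi M < 2 * c * dedekindPsi N) {ζ : Kbarˣ} (hζ : IsPrimitiveRoot ζ c)
    (x : FN M) (hx : rot ζ (iota0 M x) = iota0 M x) :
    (x : LaurentSeries Kbar) ∈ modularFunctionFieldBar N := by
  have h : N ∣ M := Dvd.intro c hM.symm
  have hJA : Kbar⟮jF M⟯ ≤ (incl h).fieldRange := J_le_range h
  have hAF : (incl h).fieldRange ≤ fixF M ζ := range_incl_le_fixF hM hζ.pow_eq_one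
  have h1 : relfinrank Kbar⟮jF M⟯ (incl h).fieldRange = dedekindPsi N := relfinrank_J_range h
  have h2 := relfinrank_J_top M
  have h3 := relfinrank_mul_relfinrank hJA hAF
  have h4 := relfinrank_mul_relfinrank (hJA.trans hAF) (le_top : fixF M ζ ≤ ⊤)
  rw [h2, ← h3, h1, relfinrank_top_right] at h4
  have hMpos : 0 < dedekindPsi M := dedekindPsi_pos M
  have hb : 0 < Module.finrank (fixF M ζ) (FN M) := by
    rcases Nat.eq_zero_or_pos (Module.finrank (fixF M ζ) (FN M)) with h0 | h0
    · rw [h0, mul_zero] at h4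
      omega
    · exact h0
  have : Module.Finite (fixF M ζ) (FN M) := FiniteDimensional.of_finrank_pos hb
  have hc := le_finrank_fixF M c hζ
  have ha : relfinrank (incl h).fieldRange (fixF M ζ) = 1 := by
    set a := relfinrank (incl h).fieldRange (fixF M ζ) with ha
    set b := Module.finrank (fixF M ζ) (FN M) with hb'
    have ha0 : a ≠ 0 := by
      rintro h0
      rw [h0, mul_zero, zero_mul] at h4
      omega
    by_contra hne
    have ha2 : 2 ≤ a := by omega
    have : dedekindPsi N * 2 * c ≤ dedekindPsi N * a * b :=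
      Nat.mul_le_mul (Nat.mul_le_mul_left _ ha2) hc
    rw [h4] at this
    nlinarith
  have hle := relfinrank_eq_one_iff.mp ha
  exact (mem_range_incl_iff h x).mp (hle hx)

end Fermat.Agent.RED.KD.H22
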