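import Fermat.Prelude.Def_AlgebraicCurve_DivisorClassGroup
import Mathlib.RingTheory.Valuation.Discrete.Basic
import Mathlib.RingTheory.Valuation.Discrete.IsDiscreteValuationRing

/-!
# G-RED package KD (helper22), part 2: a place from a `ℤᵐ⁰`-valued valuation

`exists_place_of_valuation` : a valuation `v : E → ℤᵐ⁰` on a field `E / K`, trivial on `K` and
nontrivial on `E`, is a positive multiple of the order function of a place `P` of `E / K`:
`- log (v x) = e * P.ord x`.
-/

set_option autoImplicit false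

noncomputable section

open WithZero

namespace Fermat.Agent.RED.KD.H22

open AlgebraicCurve

variable {K E : Type*} [Field K] [Field E] [Algebra K E]

theorem nontrivial_valueGroup (v : Valuation E ℤᵐ⁰) (hnt : ∃ x : E, x ≠ 0 ∧ v x ≠ 1) :
    Nontrivial (MonoidWithZeroHom.valueGroup (MonoidWithZeroHom.ofClass v)) := by
  obtain ⟨x, hx0, hx1⟩ := hnt
  have hv0 : v x ≠ 0 := (Valuation.ne_zero_iff v).mpr hx0
  refine ⟨⟨⟨Units.mk0 (v x) hv0, MonoidWithZeroHom.mem_valueGroup _ ⟨x, rfl⟩⟩, 1, ?_⟩⟩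
  intro h
  have h' := congrArg (fun y : MonoidWithZeroHom.valueGroup (MonoidWithZeroHom.ofClass v) =>
    ((y : (ℤᵐ⁰)ˣ) : ℤᵐ⁰)) h
  exact hx1 (by simpa using h')

/-- The place with valuation ring `v.valuationSubring`. -/
def placeOfValuation (v : Valuation E ℤᵐ⁰) (hK : ∀ a : K, v (algebraMap K E a) ≤ 1)
    (hnt : ∃ x : E, x ≠ 0 ∧ v x ≠ 1) : Place K E where
  toValuationSubring := v.valuationSubring
  algebraMap_mem' := fun a => (Valuation.mem_valuationSubring_iff v _).mpr (hK a)
  ne_top' := by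
    intro h
    obtain ⟨x, hx0, hx1⟩ := hnt
    have h1 : v x ≤ 1 := by
      rw [← Valuation.mem_valuationSubring_iff, h]; exact ValuationSubring.mem_top _
    have h2 : v x⁻¹ ≤ 1 := by
      rw [← Valuation.mem_valuationSubring_iff, h]; exact ValuationSubring.mem_top _
    rw [map_inv₀] at h2
    have hv0 : v x ≠ 0 := (Valuation.ne_zero_iff v).mpr hx0
    have h3 : 1 ≤ v x := by
      have := mul_le_mul_left h2 (v x)
      rwa [inv_mul_cancel₀ hv0, one_mul] at this
    exact hx1 (le_antisymm h1 h3)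
  isPrincipalIdealRing' :=
    haveI := nontrivial_valueGroup v hnt
    Valuation.valuationSubring_isPrincipalIdealRing v

theorem placeOfValuation_toValuationSubring (v : Valuation E ℤᵐ⁰)
    (hK : ∀ a : K, v (algebraMap K E a) ≤ 1) (hnt : ∃ x : E, x ≠ 0 ∧ v x ≠ 1) :
    (placeOfValuation v hK hnt).toValuationSubring = v.valuationSubring := rfl

theorem eq_one_of_mul_eq_one {a b : ℤᵐ⁰} (ha : a ≤ 1) (hb : b ≤ 1) (hab : a * b = 1) : a = 1 := by
  refine le_antisymm ha ?_
  calc (1 : ℤᵐ⁰) = a * b := hab.symm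
    _ ≤ a * 1 := mul_le_mul_right hb a
    _ = a := mul_one a

/-- `- log (v x) = e * P.ord x` for the place `P` of `v`. -/
theorem exists_ord_placeOfValuation (v : Valuation E ℤᵐ⁰)
    (hK : ∀ a : K, v (algebraMap K E a) ≤ 1) (hnt : ∃ x : E, x ≠ 0 ∧ v x ≠ 1) :
    ∃ e : ℕ, 0 < e ∧ ∀ x : E, x ≠ 0 →
      -(WithZero.log (v x)) = (e : ℤ) * (placeOfValuation v hK hnt).ord x := by
  set P := placeOfValuation v hK hnt with hP
  obtain ⟨π, hπ⟩ := IsDiscreteValuationRing.exists_irreducible P.toValuationSubring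
  have hπ0 : (π : E) ≠ 0 := by
    simpa [ne_eq, ZeroMemClass.coe_eq_zero] using hπ.ne_zero
  have hvπ0 : v (π : E) ≠ 0 := (Valuation.ne_zero_iff v).mpr hπ0
  have hmem : ∀ y : P.toValuationSubring, v (y : E) ≤ 1 := fun y =>
    (Valuation.mem_valuationSubring_iff v _).mp y.2
  -- units of the valuation ring have valuation one
  have hunit : ∀ u : P.toValuationSubringˣ, v ((u : P.toValuationSubring) : E) = 1 := by
    intro u
    have h3 : ((u : P.toValuationSubring) : E) *
        (((u⁻¹ : P.toValuationSubringˣ) : P.toValuationSubring) : E) = 1 := by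
      rw [← MulMemClass.coe_mul, Units.mul_inv]
      rfl
    have h4 : v ((u : P.toValuationSubring) : E) *
        v (((u⁻¹ : P.toValuationSubringˣ) : P.toValuationSubring) : E) = 1 := by
      rw [← map_mul, h3, map_one]
    exact eq_one_of_mul_eq_one (hmem _) (hmem _) h4
  -- the uniformizer has valuation `< 1`
  have hπlt : v (π : E) < 1 := by
    refine lt_of_le_of_ne (hmem π) ?_
    intro h1
    apply hπ.not_isUnit
    have hinv : (π : E)⁻¹ ∈ P.toValuationSubring := by
      show (π : E)⁻¹ ∈ v.valuationSubring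
      rw [Valuation.mem_valuationSubring_iff, map_inv₀, h1, inv_one]
    refine isUnit_iff_exists_inv.mpr ⟨⟨(π : E)⁻¹, hinv⟩, ?_⟩
    apply Subtype.ext
    show (π : E) * (π : E)⁻¹ = 1
    exact mul_inv_cancel₀ hπ0
  have hlog : WithZero.log (v (π : E)) < 0 := by
    rw [← WithZero.log_one]
    exact (WithZero.log_lt_log hvπ0 one_ne_zero).mpr hπlt
  refine ⟨(-(WithZero.log (v (π : E)))).toNat, by omega, fun x hx => ?_⟩
  obtain ⟨u, hu⟩ := P.exists_unit_mul_zpow hx hπ
  have hvx : v x = v (π : E) ^ (P.ord x) := by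
    conv_lhs => rw [hu]
    rw [map_mul, hunit u, one_mul, map_zpow₀]
  rw [hvx, WithZero.log_zpow, Int.toNat_of_nonneg (by omega)]
  simp only [smul_eq_mul]
  ring

end Fermat.Agent.RED.KD.H22
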