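import Fermat.Agent.RED.Core
import Fermat.Agent.RED.KD.H22_Degree
import Fermat.Agent.RED.KD.H22_Place
import Fermat.Agent.S24.Closure.Val

/-!
# G-RED package KD (helper22): Kummer descent `X₀(M) → X₀(N)`

`stmt_KD : Stmt_KD`.
-/

set_option autoImplicit false

noncomputable section

open HahnSeries ModularCurve IntermediateField WithZero

namespace Fermat.Agent.RED.KD.H22

open Fermat.Agent.S24 Fermat.Agent.RED.H10 AlgebraicCurve
open scoped MatrixGroups

/-- `ψ(N p^a) < 2 p^a ψ(N)`. -/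
theorem psi_lt (N p a : ℕ) (hN : N ≠ 0) (hp : p.Prime) :
    dedekindPsi (N * p ^ a) < 2 * p ^ a * dedekindPsi N := by
  have : NeZero N := ⟨hN⟩
  have hNpos := dedekindPsi_pos N
  rcases Nat.eq_zero_or_pos a with rfl | ha
  · rw [pow_zero, mul_one]
    omega
  obtain ⟨e, N', hN', rfl⟩ := Nat.exists_eq_pow_mul_and_not_dvd hN p hp.ne_one
  have hN'0 : N' ≠ 0 := fun h => hN (by rw [h, mul_zero])
  have : NeZero N' := ⟨hN'0⟩
  have hN'pos := dedekindPsi_pos N'
  have hcop : ∀ k, (p ^ k).Coprime N' := fun k =>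
    Nat.Coprime.pow_left k ((Nat.Prime.coprime_iff_not_dvd hp).mpr hN')
  have e1 : p ^ e * N' * p ^ a = p ^ (e + a) * N' := by rw [_root_.pow_add]; ring
  rw [e1, Fermat.Agent.S20.H19.dedekindPsi_mul (hcop (e + a)),
    Fermat.Agent.S20.H19.dedekindPsi_mul (hcop e),
    Fermat.Agent.S20.H19.dedekindPsi_prime_pow hp (by omega : 0 < e + a)]
  have hppos : 0 < p := hp.pos
  rcases Nat.eq_zero_or_pos e with rfl | he
  · rw [pow_zero, dedekindPsi_one, zero_add]
    have h1 : p ^ (a - 1) < p ^ a := Nat.pow_lt_pow_right hp.one_lt (by omega)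
    nlinarith
  · rw [Fermat.Agent.S20.H19.dedekindPsi_prime_pow hp he]
    have h2 : p ^ (e + a) = p ^ a * p ^ e := by rw [_root_.pow_add]; ring
    have h3 : p ^ (e + a - 1) = p ^ a * p ^ (e - 1) := by
      rw [← _root_.pow_add]; congr 1; omega
    rw [h2, h3]
    have h4 : 0 < p ^ a * p ^ e := by positivity
    have h5 : 0 < p ^ a * p ^ (e - 1) := by positivity
    nlinarith

/-- The valuation of a nonzero Laurent series. -/
theorem valued_eq_exp_order {K : Type*} [Field K] (x : LaurentSeries K) (hx : x ≠ 0) :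
    (Valued.v : Valuation (LaurentSeries K) ℤᵐ⁰) x = exp (-x.order) :=
  laurent_valuation_eq_of_coeff x x.order (fun h => hx (HahnSeries.coeff_order_eq_zero.mp h))
    (fun _ hn => HahnSeries.coeff_eq_zero_of_lt_order hn)

/-- The valuation of `F_N'` at the cusp `0` of `X₀(M)`. -/
def val0 {N' M : ℕ} [NeZero N'] [NeZero M] (h : N' ∣ M) : Valuation (FN N') ℤᵐ⁰ :=
  (Valued.v : Valuation (LaurentSeries Kbar) ℤᵐ⁰).comap ((iota0 M).comp (incl h).toRingHom)

theorem val0_apply {N' M : ℕ} [NeZero N'] [NeZero M] (h : N' ∣ M) (x : FN N') :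
    val0 h x = (Valued.v : Valuation (LaurentSeries Kbar) ℤᵐ⁰) (iota0 M (incl h x)) := rfl

theorem iota0_incl_ne_zero {N' M : ℕ} [NeZero N'] [NeZero M] (h : N' ∣ M) {x : FN N'}
    (hx : x ≠ 0) : iota0 M (incl h x) ≠ 0 := by
  intro h0
  apply hx
  have h1 : incl h x = 0 := iota0_injective M (by rw [h0, map_zero])
  exact (incl h).toRingHom.injective (by rw [AlgHom.toRingHom_eq_coe, RingHom.coe_coe, h1, map_zero])

theorem val0_eq {N' M : ℕ} [NeZero N'] [NeZero M] (h : N' ∣ M) {x : FN N'} (hx : x ≠ 0) :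
    val0 h x = exp (-(iota0 M (incl h x)).order) := by
  rw [val0_apply, valued_eq_exp_order _ (iota0_incl_ne_zero h hx)]

theorem val0_algebraMap_le {N' M : ℕ} [NeZero N'] [NeZero M] (h : N' ∣ M) (a : Kbar) :
    val0 h (algebraMap Kbar (FN N') a) ≤ 1 := by
  rcases eq_or_ne a 0 with rfl | ha
  · rw [map_zero, map_zero]
    exact zero_le_one
  · have hne : algebraMap Kbar (FN N') a ≠ 0 := by
      rw [Ne, map_eq_zero_iff _ (algebraMap Kbar (FN N')).injective]
      exact ha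
    rw [val0_eq h hne, AlgHom.commutes, iota0_algebraMap, HahnSeries.order_C, neg_zero, exp_zero]

theorem val0_jF_ne_one {N' M : ℕ} [NeZero N'] [NeZero M] (h : N' ∣ M) :
    val0 h (jF N') ≠ 1 := by
  have hM : 0 < M := Nat.pos_of_ne_zero (NeZero.ne M)
  have hne : jF N' ≠ 0 := by
    intro h0
    have := congrArg (fun y : FN N' => (y : LaurentSeries Kbar)) h0
    exact jBar_ne_zero this
  rw [val0_eq h hne, incl_jF, jF_eq_jdF, iota0_jdF M 1 (one_dvd M)]
  have : NeZero (M / 1) := ⟨by rw [Nat.div_one]; exact NeZero.ne M⟩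
  intro h1
  have h2 : (qExpand Kbar (M / 1) jBar).order ≤ -(M : ℤ) := by
    apply HahnSeries.order_le_of_coeff_ne_zero
    have e : -(M : ℤ) = ((M / 1 : ℕ) : ℤ) * (-1) := by rw [Nat.div_one]; ring
    rw [e, qExpand_coeff_mul, asm_jBar_coeff_neg_one]
    exact one_ne_zero
  have h3 : -(qExpand Kbar (M / 1) jBar).order = 0 := by
    have := congrArg WithZero.log h1
    rwa [WithZero.log_exp, WithZero.log_one] at this
  have : (0 : ℤ) < M := by exact_mod_cast hM
  omega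

/-- There is a function of order one at every place. -/
theorem exists_ord_eq_one {K F : Type*} [Field K] [Field F] [Algebra K F] (P : Place K F) :
    ∃ x : F, x ≠ 0 ∧ P.ord x = 1 := by
  obtain ⟨π, hπ⟩ := IsDiscreteValuationRing.exists_irreducible P.toValuationSubring
  refine ⟨(π : F), ?_, P.ord_coe_irreducible hπ⟩
  simpa [ne_eq, ZeroMemClass.coe_eq_zero] using hπ.ne_zero

/-- **One step of the Kummer descent.** -/
theorem kd_step {N M c : ℕ} [NeZero N] [NeZero M] (hM : M = N * c)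
    (hψ : dedekindPsi M < 2 * c * dedekindPsi N) {m : ℕ} (hm : 0 < m)
    {N' : ℕ} [NeZero N'] (hN' : N' ∣ N) (f : FN N')
    (hord : ∀ P : Place Kbar (FN N'), (m : ℤ) ∣ P.ord f)
    (t : LaurentSeries Kbar) (ht : t ∈ modularFunctionFieldBar M)
    (htm : t ^ m = (f : LaurentSeries Kbar)) : t ∈ modularFunctionFieldBar N := by
  have hNM : N ∣ M := Dvd.intro c hM.symm
  have hN'M : N' ∣ M := hN'.trans hNM
  rcases eq_or_ne f 0 with rfl | hf
  · have : t = 0 := by
      have h0 : t ^ m = 0 := by rw [htm]; rfl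
      exact pow_eq_zero_iff hm.ne' |>.mp h0
    rw [this]
    exact zero_mem _
  have hc0 : c ≠ 0 := by
    rintro rfl
    exact NeZero.ne M (by rw [hM, mul_zero])
  have : NeZero c := ⟨hc0⟩
  have : NeZero m := ⟨hm.ne'⟩
  -- roots of unity
  obtain ⟨ζ₀, hζ₀⟩ := HasEnoughRootsOfUnity.exists_primitiveRoot Kbar c
  obtain ⟨η, hη⟩ := HasEnoughRootsOfUnity.exists_primitiveRoot Kbar m
  have hζ₀0 : ζ₀ ≠ 0 := hζ₀.ne_zero hc0
  set ζ : Kbarˣ := Units.mk0 ζ₀ hζ₀0 with hζdef
  have hζ : IsPrimitiveRoot ζ c := by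
    rw [← IsPrimitiveRoot.coe_units_iff]
    exact hζ₀
  -- elements of `F_N'` are fixed
  obtain ⟨k, hk⟩ := hN'
  have hM' : M = N' * (k * c) := by rw [hM, hk]; ring
  have hζ' : ζ ^ (k * c) = 1 := by rw [mul_comm, pow_mul, hζ.pow_eq_one, one_pow]
  have hfix : ∀ x : FN N', rot ζ (iota0 M (incl hN'M x)) = iota0 M (incl hN'M x) := fun x =>
    range_incl_le_fixF hM' hζ' ⟨x, rfl⟩
  -- the place at the cusp `0`
  have hnt : ∃ x : FN N', x ≠ 0 ∧ val0 hN'M x ≠ 1 := by
    refine ⟨jF N', ?_, val0_jF_ne_one hN'M⟩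
    intro h0
    have := congrArg (fun y : FN N' => (y : LaurentSeries Kbar)) h0
    exact jBar_ne_zero this
  obtain ⟨e, he, hP⟩ := exists_ord_placeOfValuation (val0 hN'M) (val0_algebraMap_le hN'M) hnt
  set P := placeOfValuation (val0 hN'M) (val0_algebraMap_le hN'M) hnt with hPdef
  have hordEq : ∀ x : FN N', x ≠ 0 → (iota0 M (incl hN'M x)).order = (e : ℤ) * P.ord x := by
    intro x hx
    have := hP x hx
    rwa [val0_eq hN'M hx, WithZero.log_exp, neg_neg] at this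
  -- `c ∣ e`
  have hce : (c : ℤ) ∣ (e : ℤ) := by
    obtain ⟨x, hx0, hx1⟩ := exists_ord_eq_one P
    have h1 := hordEq x hx0
    rw [hx1, mul_one] at h1
    rw [← h1]
    exact dvd_order_of_rot_eq hζ (hfix x) (iota0_incl_ne_zero hN'M hx0)
  -- the order of `f` at the cusp `0` is divisible by `c m`
  have hcm : ((c * m : ℕ) : ℤ) ∣ (iota0 M (incl hN'M f)).order := by
    rw [hordEq f hf]
    push_cast
    exact mul_dvd_mul hce (hord P)
  -- `t` is fixed
  have hpow : (iota0 M ⟨t, ht⟩) ^ m = iota0 M (incl hN'M f) := by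
    rw [← map_pow]
    congr 1
    apply Subtype.ext
    rw [incl_coe, ← htm]
    rfl
  have htfix : rot ζ (iota0 M ⟨t, ht⟩) = iota0 M ⟨t, ht⟩ :=
    rot_eq_of_pow hm hζ hη (by rw [hpow]; exact hfix f) (by rw [hpow]; exact hcm)
  exact mem_bar_of_fixed hM hψ hζ ⟨t, ht⟩ htfix

/-- The divisors of `36`. -/
theorem exists_pow_of_dvd_36 {c : ℕ} (hc : c ∣ 36) : ∃ a b : ℕ, c = 2 ^ a * 3 ^ b := by
  have hle : c ≤ 36 := Nat.le_of_dvd (by norm_num) hc
  interval_cases c
  all_goals first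
    | (exfalso; revert hc; decide)
    | exact ⟨0, 0, rfl⟩
    | exact ⟨1, 0, rfl⟩
    | exact ⟨0, 1, rfl⟩
    | exact ⟨2, 0, rfl⟩
    | exact ⟨1, 1, rfl⟩
    | exact ⟨0, 2, rfl⟩
    | exact ⟨2, 1, rfl⟩
    | exact ⟨1, 2, rfl⟩
    | exact ⟨2, 2, rfl⟩

/-- **Package KD**: Kummer descent from level `M` to level `N`. -/
theorem stmt_KD : Stmt_KD := by
  intro N M m _ _ hNM hM36 hm f hord ht
  obtain ⟨t, htM, htm⟩ := ht
  obtain ⟨c, rfl⟩ := hNM
  have hN0 : N ≠ 0 := NeZero.ne N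
  have hc36 : c ∣ 36 := by
    have : N * c ∣ N * 36 := by rwa [mul_comm N 36]
    exact Nat.dvd_of_mul_dvd_mul_left (Nat.pos_of_ne_zero hN0) this
  obtain ⟨a, b, rfl⟩ := exists_pow_of_dvd_36 hc36
  have h1 : NeZero (N * 2 ^ a) := ⟨Nat.mul_ne_zero hN0 (by positivity)⟩
  -- first step: from `M` to `N * 2 ^ a`
  have hstep1 : t ∈ modularFunctionFieldBar (N * 2 ^ a) := by
    refine kd_step (N := N * 2 ^ a) (M := N * (2 ^ a * 3 ^ b)) (c := 3 ^ b) (by ring) ?_ hm
      (N' := N) (Dvd.intro _ rfl) f hord t htM htm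
    have := psi_lt (N * 2 ^ a) 3 b (NeZero.ne _) Nat.prime_three
    rwa [mul_assoc] at this
  -- second step: from `N * 2 ^ a` to `N`
  have hstep2 : t ∈ modularFunctionFieldBar N :=
    kd_step (N := N) (M := N * 2 ^ a) (c := 2 ^ a) rfl (psi_lt N 2 a hN0 Nat.prime_two) hm
      (N' := N) dvd_rfl f hord t hstep1 htm
  exact ⟨⟨t, hstep2⟩, Subtype.ext htm⟩

end Fermat.Agent.RED.KD.H22
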