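import Fermat.Agent.RED.Core
import Fermat.Agent.RED.KD.H22_CuspPlaces

/-!
# `IsCuspPlace` for the `q`-order place (helper22)
-/

set_option autoImplicit false

noncomputable section

namespace Fermat.Agent.RED.KD.H22

open AlgebraicCurve

/-- The `q`-order place of a subfield of `k((q))` containing an element of order `-1` is a cusp
place in the sense of `RED/Core.lean`. -/
theorem isCuspPlace_laurentPlace {k : Type} [Field k] (E : IntermediateField k (LaurentSeries k))
    (y : E) (hy : (y : LaurentSeries k).order = -1) :
    Fermat.Agent.RED.IsCuspPlace (laurentPlace E y hy) :=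
  fun f hf => ord_laurentPlace E y hy f hf

/-- Existence of the cusp place. -/
theorem exists_isCuspPlace {k : Type} [Field k] (E : IntermediateField k (LaurentSeries k))
    (y : E) (hy : (y : LaurentSeries k).order = -1) :
    ∃ P : Place k E, Fermat.Agent.RED.IsCuspPlace P :=
  ⟨_, isCuspPlace_laurentPlace E y hy⟩

/-- A cusp place is unique. -/
theorem isCuspPlace_unique {k : Type} [Field k] {E : IntermediateField k (LaurentSeries k)}
    {P Q : Place k E} (hP : Fermat.Agent.RED.IsCuspPlace P) (hQ : Fermat.Agent.RED.IsCuspPlace Q) :
    P = Q := by
  apply Place.ext
  have key : ∀ (P : Place k E), Fermat.Agent.RED.IsCuspPlace P → ∀ x : E,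
      x ∈ P.toValuationSubring ↔ x = 0 ∨ 0 ≤ (x : LaurentSeries k).order := by
    intro P hP x
    rcases eq_or_ne x 0 with rfl | hx
    · simp
    · rw [← hP x hx]
      constructor
      · intro h
        right
        have h1 : P.adicValuation x ≤ 1 := by
          have := P.adicValuation_coe ⟨x, h⟩
          rw [this]
          exact IsDedekindDomain.HeightOneSpectrum.intValuation_le_one _ _
        have h2 : WithZero.log (P.adicValuation x) ≤ 0 := by
          rw [← WithZero.log_one]
          exact (WithZero.log_le_log (P.adicValuation_ne_zero hx) one_ne_zero).mpr h1
        show 0 ≤ -(WithZero.log (P.adicValuation x))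
        omega
      · rintro (h | h)
        · exact absurd h hx
        · by_contra hmem
          have hinv : x⁻¹ ∈ P.toValuationSubring :=
            (P.toValuationSubring.mem_or_inv_mem x).resolve_left hmem
          have h1 : P.adicValuation x⁻¹ ≤ 1 := by
            have := P.adicValuation_coe ⟨x⁻¹, hinv⟩
            rw [this]
            exact IsDedekindDomain.HeightOneSpectrum.intValuation_le_one _ _
          have h2 : 0 ≤ P.ord x⁻¹ := by
            have h3 : WithZero.log (P.adicValuation x⁻¹) ≤ 0 := by
              rw [← WithZero.log_one]
              exact (WithZero.log_le_log (P.adicValuation_ne_zero (inv_ne_zero hx))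
                one_ne_zero).mpr h1
            show 0 ≤ -(WithZero.log (P.adicValuation x⁻¹))
            omega
          rw [P.ord_inv] at h2
          have h0 : P.ord x = 0 := by omega
          -- order zero means unit
          have hu : P.adicValuation x⁻¹ = 1 := by
            have h4 : WithZero.log (P.adicValuation x⁻¹) = 0 := by
              have : P.ord x⁻¹ = 0 := by rw [P.ord_inv, h0, neg_zero]
              have h5 : -(WithZero.log (P.adicValuation x⁻¹)) = 0 := this
              omega
            have h6 := WithZero.exp_log (P.adicValuation_ne_zero (inv_ne_zero hx))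
            rw [h4, WithZero.exp_zero] at h6
            exact h6.symm
          have hunit := (P.adicValuation_coe_eq_one_iff ⟨x⁻¹, hinv⟩).mp hu
          obtain ⟨⟨a, b, hab, hba⟩, ha⟩ := hunit
          apply hmem
          have hb : (b : E) = x := by
            have h7 : a = ⟨x⁻¹, hinv⟩ := ha
            have h8 : ((a * b : P.toValuationSubring) : E) = 1 := by rw [hab]; rfl
            rw [h7] at h8
            have h9 : x⁻¹ * (b : E) = 1 := h8
            field_simp at h9
            exact h9
          rw [← hb]
          exact b.2
  ext x
  rw [key P hP x, key Q hQ x]

end Fermat.Agent.RED.KD.H22
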